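import Fermat.Agent.RT.Mazur.FinishCore
import Fermat.Agent.RT.Mazur.FinishEmbed
import Fermat.Agent.RT.Mazur.FinishForm
import Fermat.Agent.Arith.Chebotarev.Main

/-!
# Mazur's principle for eigen classes

An eigen class of level `q M` for an absolutely irreducible two dimensional representation
unramified at `q ≠ p` with nonscalar Frobenius gives a congruent eigenform of level `M`.
-/

set_option autoImplicit false
set_option synthInstance.maxHeartbeats 400000
set_option linter.unusedSectionVars false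

noncomputable section

namespace Fermat.Agent.RT.Mazur

open ModularCurve AlgebraicCurve
open Fermat.Agent.Semistable Fermat.Agent.Arith

/-- **Mazur's principle.** -/
theorem congrForm_of_eigen {p q M M' : ℕ} [NeZero M] [NeZero M'] [Fact p.Prime] [Fact q.Prime]
    (_hp2 : p ≠ 2) (hqp : q ≠ p) (hMM : M ∣ M') (hqM' : ¬ q ∣ M')
    (hdeg : ∃ d, d * dedekindPsi M = dedekindPsi M' ∧ Nat.Coprime p d)
    (hell : NoElliptic M')
    (r : GQ →* Matrix (Fin 2) (Fin 2) (ZMod p)) (hfin : GaloisFactorsThroughFiniteLevel r)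
    (hspan : Submodule.span (ZMod p) (Set.range r) = ⊤)
    (A : ValuationSubring QBar) (hA : A.LiesOverPrime q)
    (hunr : ∀ τ ∈ A.inertiaSubgroupIn ℚ, r τ = 1)
    (σ : GQ) (hσ : A.IsFrobeniusAt σ q) (hns : ∀ c : ZMod p, r σ ≠ c • 1)
    (G : ℕ → Prop) (a : ℕ → ℤ)
    (hGT : ∃ T : Finset ℕ, ∀ l : ℕ, l.Prime → l ∉ T → G l)
    (hG : ∀ l : ℕ, l.Prime → G l → ¬ l ∣ q * M * p)
    (hfrob : ∀ l : ℕ, l.Prime → G l → ∀ B : ValuationSubring QBar, B.LiesOverPrime l →
      ∀ τ : GQ, B.IsFrobeniusAt τ l → (r τ).trace = (a l : ZMod p) ∧ (r τ).det = (l : ZMod p))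
    (x : JZero (q * M)) (hx0 : x ≠ 0) (hpx : p • x = 0)
    (hxe : MazurP.IsEigen (q * M) G a x) :
    MazurP.CongrForm M p G a := by
  have : CharP (Res A) q := residueField_charP hA Fact.out
  have : IsAlgClosed (Res A) := residueField_isAlgClosed A
  have hqM : ¬ q ∣ M := fun hd => hqM' (hd.trans hMM)
  have hM : (M : Res A) ≠ 0 := fun e => hqM ((CharP.cast_eq_zero_iff (Res A) q M).mp e)
  have hM' : (M' : Res A) ≠ 0 := fun e => hqM' ((CharP.cast_eq_zero_iff (Res A) q M').mp e)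
  have : FF.IsFunctionField (Res A) (KM A M) := RedTorsion.isFunctionField_full rfl hM
  have : FF.IsFunctionField (Res A) (KM A M') := RedTorsion.isFunctionField_full rfl hM'
  have hG' : ∀ l, l.Prime → G l → ¬ l ∣ q * M := fun l hl hGl hd => hG l hl hGl (hd.mul_right p)
  -- an eigenvalue which is not that of the trivial plus cyclotomic representation
  have hl₀ : ∃ l, l.Prime ∧ G l ∧ ¬ (p : ℤ) ∣ a l - (1 + (l : ℤ)) := by
    obtain ⟨g, hg⟩ := exists_det_sub_one_ne_zero r hspan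
    obtain ⟨L, hL, hLr⟩ := hfin
    obtain ⟨T, hT⟩ := hGT
    obtain ⟨l, hl, hlT, B, hB, τ, hτ, he⟩ := Arith.Chebotarev.exists_frobenius_eq r L hLr g T
    obtain ⟨htr, hdet⟩ := hfrob l hl (hT l hl hlT) B hB τ hτ
    refine ⟨l, hl, hT l hl hlT, fun hd => hg ?_⟩
    have hd' := (ZMod.intCast_zmod_eq_zero_iff_dvd _ p).mpr hd
    push_cast at hd'
    rw [← he]
    rw [Matrix.trace_fin_two] at htr
    rw [Matrix.det_fin_two] at hdet ⊢
    simp only [Matrix.sub_apply, Matrix.one_apply_eq,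
      Matrix.one_apply_ne (show (0 : Fin 2) ≠ 1 by decide),
      Matrix.one_apply_ne (show (1 : Fin 2) ≠ 0 by decide)]
    linear_combination hdet - htr - hd'
  obtain ⟨ι, hι, hιe, hequiv⟩ := exists_eigen_plane r hfin hspan G a hGT hfrob hx0 hpx hxe
  obtain ⟨y, hy0, hpy, hye⟩ := exists_eigen_level_of_embedding
    (⟨hA, hqM, hM, goodM_of_ne_zero hM⟩ : Setup A M q) hMM hqM' hell hdeg hqp.symm r hspan hunr hσ
    hns G a hG' hl₀ ι hι hequiv hιe
  exact congrForm_of_eigenClass hy0 hpy hye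

end Fermat.Agent.RT.Mazur

end
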